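import Fermat.Agent.S55.Local.H90.Bridge

/-!
# S55, layer L, glue T3 : the abstract norm-index computation

`M` a commutative group with an action of a finite cyclic group `G = ⟨σ⟩` of order `n`,
`U ≤ M` the kernel of a `G`-invariant surjective "valuation" `w : M → ℤ`, `V ≤ U` a `G`-stable
subgroup of finite index with trivial `Ĥ⁰` and `H¹`, and Hilbert 90 for `M`.  Then
`[M^G : N_G M] = n`.
-/

set_option autoImplicit false

namespace Fermat.Agent.S55.Local.H90

open Fermat.Agent.S55.Herbrand

section FullEnd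

variable {G M : Type*} [Group G] [CommGroup M] [MulDistribMulAction G M]

/-- The action of `g` on `M`, as an endomorphism of `Additive M`. -/
def fullEnd (g : G) : AddMonoid.End (Additive M) :=
  MonoidHom.toAdditive (MulDistribMulAction.toMonoidHom M g)

lemma fullEnd_apply (g : G) (a : Additive M) :
    (fullEnd g a).toMul = g • a.toMul := rfl

lemma fullEnd_pow_apply (g : G) (i : ℕ) (a : Additive M) :
    ((fullEnd g ^ i) a).toMul = g ^ i • a.toMul := by
  induction i generalizing a with
  | zero => simp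
  | succ i ih =>
    rw [pow_succ]
    change ((fullEnd g ^ i) (fullEnd g a)).toMul = _
    rw [ih, fullEnd_apply, pow_succ, mul_smul]

lemma fullEnd_pow_eq_one (g : G) {n : ℕ} (hn : g ^ n = 1) :
    (fullEnd g : AddMonoid.End (Additive M)) ^ n = 1 := by
  refine DFunLike.ext _ _ fun a => ?_
  apply Additive.toMul.injective
  rw [fullEnd_pow_apply, hn, one_smul]
  rfl

lemma delta_fullEnd_apply (g : G) (a : Additive M) :
    ((delta (fullEnd g)) a).toMul = g • a.toMul / a.toMul := by
  rw [delta_apply]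
  rfl

lemma toMul_sum' {ι : Type*} (s : Finset ι) (f : ι → Additive M) :
    (∑ i ∈ s, f i).toMul = ∏ i ∈ s, (f i).toMul := by
  classical
  induction s using Finset.induction_on with
  | empty => simp
  | insert i s hi ih =>
    rw [Finset.sum_insert hi, Finset.prod_insert hi, ← ih]
    rfl

lemma normN_fullEnd_apply (g : G) (n : ℕ) (a : Additive M) :
    ((normN (fullEnd g) n) a).toMul = ∏ i ∈ Finset.range n, g ^ i • a.toMul := by
  rw [normN_apply, toMul_sum']
  exact Finset.prod_congr rfl fun i _ => fullEnd_pow_apply g i a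

/-- The subgroup of elements fixed by `g`. -/
def fixedBy (g : G) : Subgroup M where
  carrier := {x | g • x = x}
  mul_mem' := by
    intro x y hx hy
    change g • x = x at hx
    change g • y = y at hy
    change g • (x * y) = x * y
    rw [smul_mul', hx, hy]
  one_mem' := by
    change g • (1 : M) = 1
    simp
  inv_mem' := by
    intro x hx
    change g • x = x at hx
    change g • x⁻¹ = x⁻¹
    rw [smul_inv', hx]

lemma mem_fixedBy {g : G} {x : M} : x ∈ fixedBy (M := M) g ↔ g • x = x := Iff.rfl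

variable (G M) in
/-- The subgroup of norms `∏ g, g • y`. -/
def normSubgroup [Fintype G] : Subgroup M where
  carrier := {x | ∃ y : M, ∏ g : G, g • y = x}
  mul_mem' := by
    rintro _ _ ⟨y, rfl⟩ ⟨z, rfl⟩
    exact ⟨y * z, by simp only [smul_mul']; rw [Finset.prod_mul_distrib]⟩
  one_mem' := ⟨1, by simp⟩
  inv_mem' := by
    rintro _ ⟨y, rfl⟩
    exact ⟨y⁻¹, by simp only [smul_inv']; rw [Finset.prod_inv_distrib]⟩

lemma mem_normSubgroup [Fintype G] {x : M} :
    x ∈ normSubgroup G M ↔ ∃ y : M, ∏ g : G, g • y = x := Iff.rfl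

end FullEnd

section Main

variable {G M : Type*} [Group G] [Fintype G] [CommGroup M] [MulDistribMulAction G M]

/-- A `σ`-stable subgroup with `Ĥ⁰ = H¹ = 1` has Herbrand quotient `1`. -/
theorem herbrand_sub_of_trivial (σ : G) (hσ : ∀ g, g ∈ Subgroup.zpowers σ)
    (V : Subgroup M) (hV : ∀ x ∈ V, σ • x ∈ V)
    (hV0 : ∀ x ∈ V, σ • x = x → ∃ y ∈ V, ∏ g : G, g • y = x)
    (hV1 : ∀ x ∈ V, ∏ g : G, g • x = 1 → ∃ y ∈ V, σ • y / y = x) :
    HerbrandDefined (subEnd V σ hV) (Nat.card G) ∧ herbrand (subEnd V σ hV) (Nat.card G) = 1 := by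
  have h0 : h0 (subEnd V σ hV) (Nat.card G) = 1 := by
    rw [h0_eq_relIndex, AddSubgroup.relIndex_eq_one]
    intro a ha
    rw [AddMonoidHom.mem_ker] at ha
    have hfix : σ • ((a.toMul : V) : M) = ((a.toMul : V) : M) := by
      have := delta_subEnd_apply V σ hV a
      rw [ha] at this
      have h1 : ((Additive.toMul (0 : Additive V) : V) : M) = 1 := rfl
      rw [h1] at this
      exact (div_eq_one.1 this.symm)
    obtain ⟨y, hyV, hy⟩ := hV0 _ a.toMul.2 hfix
    refine ⟨Additive.ofMul ⟨y, hyV⟩, ?_⟩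
    apply Additive.toMul.injective
    apply Subtype.ext
    rw [normN_subEnd_apply, ← hy, prod_eq_prod_range_pow σ hσ]
    rfl
  have h1 : h1 (subEnd V σ hV) (Nat.card G) = 1 := by
    rw [h1_eq_relIndex, AddSubgroup.relIndex_eq_one]
    intro a ha
    rw [AddMonoidHom.mem_ker] at ha
    have hnorm : ∏ g : G, g • ((a.toMul : V) : M) = 1 := by
      have := normN_subEnd_apply V σ hV (Nat.card G) a
      rw [ha] at this
      rw [prod_eq_prod_range_pow σ hσ, ← this]
      rfl
    obtain ⟨y, hyV, hy⟩ := hV1 _ a.toMul.2 hnorm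
    refine ⟨Additive.ofMul ⟨y, hyV⟩, ?_⟩
    apply Additive.toMul.injective
    apply Subtype.ext
    rw [delta_subEnd_apply, ← hy]
    rfl
  refine ⟨?_, ?_⟩
  · rw [herbrandDefined_iff, h0, h1]
    exact ⟨one_ne_zero, one_ne_zero⟩
  · rw [herbrand_eq_div, h0, h1]
    simp

/-- **Abstract norm index theorem.** -/
theorem relIndex_normSubgroup_fixedBy (σ : G) (hσ : ∀ g, g ∈ Subgroup.zpowers σ)
    (U V : Subgroup M) (hVU : V ≤ U) (hfin : V.relIndex U ≠ 0)
    (hU : ∀ x ∈ U, σ • x ∈ U) (hV : ∀ x ∈ V, σ • x ∈ V)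
    (hV0 : ∀ x ∈ V, σ • x = x → ∃ y ∈ V, ∏ g : G, g • y = x)
    (hV1 : ∀ x ∈ V, ∏ g : G, g • x = 1 → ∃ y ∈ V, σ • y / y = x)
    (w : M → ℤ) (hw_mul : ∀ x y, w (x * y) = w x + w y) (hw_one : ∃ x, w x = 1)
    (hw_ker : ∀ x, w x = 0 ↔ x ∈ U) (hwσ : ∀ x, w (σ • x) = w x)
    (h90 : ∀ x : M, ∏ g : G, g • x = 1 → ∃ y : M, σ • y / y = x) :
    (normSubgroup G M).relIndex (fixedBy (M := M) σ) = Nat.card G := by
  classical
  have hn0 : Nat.card G ≠ 0 := Nat.card_pos.ne'
  have hσn : σ ^ (Nat.card G) = 1 := pow_card_eq_one'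
  -- Herbrand quotient of `V`
  obtain ⟨hVdef, hVq⟩ := herbrand_sub_of_trivial σ hσ V hV hV0 hV1
  -- inclusion `V → U`
  let iVU : Additive V →+ Additive U := MonoidHom.toAdditive (Subgroup.inclusion hVU)
  have hiVU : Function.Injective iVU := by
    intro a b hab
    have h1 : Subgroup.inclusion hVU a.toMul = Subgroup.inclusion hVU b.toMul :=
      Additive.ofMul.injective hab
    exact Additive.toMul.injective (Subgroup.inclusion_injective hVU h1)
  have hrange : iVU.range = Subgroup.toAddSubgroup (V.subgroupOf U) := by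
    ext a
    constructor
    · rintro ⟨b, rfl⟩
      change (Subgroup.inclusion hVU b.toMul) ∈ V.subgroupOf U
      rw [Subgroup.mem_subgroupOf]
      exact b.toMul.2
    · intro ha
      have ha' : ((a.toMul : U) : M) ∈ V := ha
      exact ⟨Additive.ofMul ⟨_, ha'⟩, rfl⟩
  have hfinVU : iVU.range.FiniteIndex := by
    refine ⟨?_⟩
    rw [hrange, Subgroup.index_toAddSubgroup]
    exact hfin
  have hiVUσ : ∀ a, iVU (subEnd V σ hV a) = subEnd U σ hU (iVU a) := fun _ => rfl
  have hσU : subEnd U σ hU ^ (Nat.card G) = 1 := subEnd_pow_eq_one U σ hU hσn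
  have hUq : herbrand (subEnd U σ hU) (Nat.card G) = 1 := by
    rw [← herbrand_eq_of_finite_coker hσU hiVU hfinVU hiVUσ]
    exact hVq
  have hUdef : HerbrandDefined (subEnd U σ hU) (Nat.card G) :=
    (herbrandDefined_iff_of_finite_coker hσU hiVU hfinVU hiVUσ).1 hVdef
  -- the exact sequence `0 → U → M → ℤ → 0`
  let iU : Additive U →+ Additive M := MonoidHom.toAdditive U.subtype
  have hiU : Function.Injective iU := by
    intro a b hab
    have h1 : U.subtype a.toMul = U.subtype b.toMul := Additive.ofMul.injective hab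
    exact Additive.toMul.injective (Subgroup.subtype_injective U h1)
  let p : Additive M →+ ℤ := AddMonoidHom.mk' (fun a => w a.toMul) (fun a b => hw_mul _ _)
  have hp_apply : ∀ a : Additive M, p a = w a.toMul := fun _ => rfl
  have hp : Function.Surjective p := by
    obtain ⟨x, hx⟩ := hw_one
    intro k
    refine ⟨k • Additive.ofMul x, ?_⟩
    rw [map_zsmul, hp_apply]
    simp [hx]
  have hex : p.ker = iU.range := by
    ext a
    rw [AddMonoidHom.mem_ker, hp_apply, hw_ker]
    constructor
    · intro ha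
      exact ⟨Additive.ofMul ⟨a.toMul, ha⟩, rfl⟩
    · rintro ⟨b, rfl⟩
      exact b.toMul.2
  have hiUσ : ∀ a, iU (subEnd U σ hU a) = fullEnd σ (iU a) := fun _ => rfl
  have hpσ : ∀ b, p (fullEnd σ b) = (1 : AddMonoid.End ℤ) (p b) := by
    intro b
    rw [hp_apply, fullEnd_apply, hwσ]
    rfl
  have hσM : (fullEnd σ : AddMonoid.End (Additive M)) ^ (Nat.card G) = 1 := fullEnd_pow_eq_one σ hσn
  have hMq : herbrand (fullEnd σ : AddMonoid.End (Additive M)) (Nat.card G) = (Nat.card G) := by
    rw [herbrand_mul_of_exact hσM hiU hp hex hiUσ hpσ hUdef (herbrandDefined_int hn0), hUq,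
      herbrand_int hn0, one_mul]
  have hMdef : HerbrandDefined (fullEnd σ : AddMonoid.End (Additive M)) (Nat.card G) :=
    herbrandDefined_mid hσM hiU hp hex hiUσ hpσ hUdef (herbrandDefined_int hn0)
  -- Hilbert 90
  have hM1 : h1 (fullEnd σ : AddMonoid.End (Additive M)) (Nat.card G) = 1 := by
    rw [h1_eq_relIndex, AddSubgroup.relIndex_eq_one]
    intro a ha
    rw [AddMonoidHom.mem_ker] at ha
    have hnorm : ∏ g : G, g • a.toMul = 1 := by
      have := normN_fullEnd_apply σ (Nat.card G) a
      rw [ha] at this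
      rw [prod_eq_prod_range_pow σ hσ, ← this]
      rfl
    obtain ⟨y, hy⟩ := h90 _ hnorm
    refine ⟨Additive.ofMul y, ?_⟩
    apply Additive.toMul.injective
    rw [delta_fullEnd_apply, ← hy]
    rfl
  have hM0 : h0 (fullEnd σ : AddMonoid.End (Additive M)) (Nat.card G) = (Nat.card G) := by
    have := hMq
    rw [herbrand_eq_div, hM1] at this
    simp only [Nat.cast_one, div_one] at this
    exact_mod_cast this
  -- translate `h0`
  have hker : AddMonoidHom.ker (delta (fullEnd σ : AddMonoid.End (Additive M)))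
      = Subgroup.toAddSubgroup (fixedBy (M := M) σ) := by
    ext a
    rw [AddMonoidHom.mem_ker]
    change _ ↔ σ • a.toMul = a.toMul
    constructor
    · intro ha
      have := delta_fullEnd_apply σ a
      rw [ha] at this
      exact div_eq_one.1 this.symm
    · intro ha
      apply Additive.toMul.injective
      rw [delta_fullEnd_apply, ha, div_self']
      rfl
  have hrangeN : AddMonoidHom.range (normN (fullEnd σ : AddMonoid.End (Additive M)) (Nat.card G))
      = Subgroup.toAddSubgroup (normSubgroup G M) := by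
    ext a
    constructor
    · rintro ⟨b, rfl⟩
      change _ ∈ normSubgroup G M
      refine ⟨b.toMul, ?_⟩
      have := normN_fullEnd_apply σ (Nat.card G) b
      rw [prod_eq_prod_range_pow σ hσ]
      exact this.symm
    · rintro ⟨y, hy⟩
      refine ⟨Additive.ofMul y, ?_⟩
      apply Additive.toMul.injective
      rw [normN_fullEnd_apply, ← hy, prod_eq_prod_range_pow σ hσ]
      rfl
  rw [h0_eq_relIndex, hker, hrangeN, Subgroup.relIndex_toAddSubgroup] at hM0
  exact hM0

end Main

end Fermat.Agent.S55.Local.H90
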