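import Fermat.Agent.S55.Local.Spec
import Fermat.Agent.S55.Herbrand.Cyclic

/-!
# S55, layer L, glue T3 : multiplicative-to-additive bridge for the Herbrand library

For a commutative group `M` with a `MulDistribMulAction` of `G`, an element `g : G` and a
`g`-stable subgroup `S ≤ M` we turn the action of `g` on `S` into an additive endomorphism of
`Additive S` and compute `delta`, `normN`, `h0`, `h1` of the landed Herbrand library in
multiplicative terms.
-/

set_option autoImplicit false

namespace Fermat.Agent.S55.Local.H90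

open Fermat.Agent.S55.Herbrand

section Bridge

variable {G M : Type*} [Group G] [CommGroup M] [MulDistribMulAction G M]

/-- The action of `g` on a `g`-stable subgroup `S`, as an endomorphism of `Additive S`. -/
def subEnd (S : Subgroup M) (g : G) (hS : ∀ x ∈ S, g • x ∈ S) : AddMonoid.End (Additive S) :=
  MonoidHom.toAdditive
    (((MulDistribMulAction.toMonoidHom M g).comp S.subtype).codRestrict S (fun x => hS x x.2))

lemma subEnd_apply (S : Subgroup M) (g : G) (hS : ∀ x ∈ S, g • x ∈ S) (a : Additive S) :
    ((subEnd S g hS a).toMul : M) = g • ((a.toMul : S) : M) := rfl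

lemma stable_pow (S : Subgroup M) (g : G) (hS : ∀ x ∈ S, g • x ∈ S) (i : ℕ) :
    ∀ x ∈ S, g ^ i • x ∈ S := by
  induction i with
  | zero => intro x hx; simpa using hx
  | succ i ih =>
    intro x hx
    rw [pow_succ, mul_smul]
    exact ih _ (hS x hx)

lemma subEnd_pow_apply (S : Subgroup M) (g : G) (hS : ∀ x ∈ S, g • x ∈ S) (i : ℕ)
    (a : Additive S) :
    (((subEnd S g hS ^ i) a).toMul : M) = g ^ i • ((a.toMul : S) : M) := by
  induction i generalizing a with
  | zero => simp
  | succ i ih =>
    rw [pow_succ]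
    change ((((subEnd S g hS ^ i) (subEnd S g hS a)).toMul : S) : M) = _
    rw [ih, subEnd_apply, pow_succ, mul_smul]

lemma subEnd_pow_eq_one (S : Subgroup M) (g : G) (hS : ∀ x ∈ S, g • x ∈ S) {n : ℕ}
    (hn : g ^ n = 1) : subEnd S g hS ^ n = 1 := by
  refine DFunLike.ext _ _ fun a => ?_
  apply Additive.toMul.injective
  apply Subtype.ext
  rw [subEnd_pow_apply, hn, one_smul]
  rfl

lemma delta_subEnd_apply (S : Subgroup M) (g : G) (hS : ∀ x ∈ S, g • x ∈ S) (a : Additive S) :
    (((delta (subEnd S g hS)) a).toMul : M) = g • ((a.toMul : S) : M) / ((a.toMul : S) : M) := by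
  rw [delta_apply]
  rfl

lemma coe_toMul_sum {ι : Type*} (S : Subgroup M) (s : Finset ι) (f : ι → Additive S) :
    (((∑ i ∈ s, f i).toMul : S) : M) = ∏ i ∈ s, (((f i).toMul : S) : M) := by
  classical
  induction s using Finset.induction_on with
  | empty => simp
  | insert i s hi ih =>
    rw [Finset.sum_insert hi, Finset.prod_insert hi, ← ih]
    rfl

lemma normN_subEnd_apply (S : Subgroup M) (g : G) (hS : ∀ x ∈ S, g • x ∈ S) (n : ℕ)
    (a : Additive S) :
    (((normN (subEnd S g hS) n) a).toMul : M)
      = ∏ i ∈ Finset.range n, g ^ i • ((a.toMul : S) : M) := by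
  rw [normN_apply, coe_toMul_sum]
  exact Finset.prod_congr rfl fun i _ => subEnd_pow_apply S g hS i a

end Bridge

section Cyc

variable {G : Type*} [Group G] [Fintype G]

lemma prod_eq_prod_range_pow {M : Type*} [CommMonoid M] (g : G)
    (hg : ∀ x, x ∈ Subgroup.zpowers g) (f : G → M) :
    ∏ h : G, f h = ∏ i ∈ Finset.range (Nat.card G), f (g ^ i) := by
  classical
  have hord : orderOf g = Nat.card G := orderOf_eq_card_of_forall_mem_zpowers hg
  rw [← hord]
  symm
  refine Finset.prod_bij (fun i _ => g ^ i) (fun _ _ => Finset.mem_univ _) ?_ ?_ (fun _ _ => rfl)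
  · intro i hi j hj hij
    exact pow_injOn_Iio_orderOf (by simpa using hi) (by simpa using hj) hij
  · intro h _
    obtain ⟨i, hi, rfl⟩ :=
      Finset.mem_image.1 ((mem_zpowers_iff_mem_range_orderOf (x := g) (y := h)).1 (hg h))
    exact ⟨i, hi, rfl⟩

end Cyc

end Fermat.Agent.S55.Local.H90
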