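import Fermat.Agent.S55.Local.H90.Abstract

/-!
# S55, layer L, glue T3 : `CyclicNormIndexStatement`

`[Kˣ : N(Lˣ)] = [L : K]` for a cyclic extension `L / K` of local fields, from
* CY1 (`CyclicGoodSubgroupStatement`),
* LF2 (`ExistsUnifStatement`), LF4 (`GaloisInvStatement`),
* the landed Herbrand library and Hilbert 90 (Mathlib).
-/

set_option autoImplicit false

namespace Fermat.Agent.S55.Local.H90

open Fermat.Agent.S55.Herbrand

section Valuation

variable (A F : Type) [CommRing A] [Field F] [Algebra A F]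
variable (L : Type) [Field L] [Algebra F L]

/-- If `ϖ` is integral and `ϖ ^ k` is a unit of the ring of integers for some `k > 0`, then `ϖ`
is a unit of the ring of integers. -/
lemma mem_intUnits_of_pow_mem {ϖ : Lˣ} (hϖ : IsInt A F L (ϖ : L)) {k : ℕ} (hk : 0 < k)
    (h : ϖ ^ k ∈ intUnits A F L) : ϖ ∈ intUnits A F L := by
  refine ⟨hϖ, ?_⟩
  obtain ⟨m, rfl⟩ : ∃ m, k = m + 1 := ⟨k - 1, by omega⟩
  have h2 : IsInt A F L (((ϖ ^ (m + 1))⁻¹ : Lˣ) : L) := h.2
  have h3 : (ϖ⁻¹ : Lˣ) = ϖ ^ m * (ϖ ^ (m + 1))⁻¹ := by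
    rw [pow_succ, mul_inv_rev, ← mul_assoc, mul_comm (ϖ ^ m) ϖ⁻¹, mul_assoc, mul_inv_cancel,
      mul_one]
  rw [h3, Units.val_mul]
  refine IsInt.mul ?_ h2
  rw [Units.val_pow_eq_pow_val]
  clear h h2 h3 hk
  induction m with
  | zero => simpa using isInt_one A F L
  | succ m ih => rw [pow_succ]; exact ih.mul hϖ

/-- `ϖ ^ k` is a unit of the ring of integers only for `k = 0`. -/
lemma zpow_mem_intUnits_iff {ϖ : Lˣ} (hϖ : IsUnif A F L ϖ) (k : ℤ) :
    ϖ ^ k ∈ intUnits A F L ↔ k = 0 := by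
  constructor
  · intro h
    by_contra hk
    rcases lt_or_gt_of_ne hk with hneg | hpos
    · have h' : ϖ ^ (-k) ∈ intUnits A F L := by
        rw [zpow_neg]; exact (intUnits A F L).inv_mem h
      obtain ⟨m, hm⟩ : ∃ m : ℕ, -k = m := ⟨(-k).toNat, (Int.toNat_of_nonneg (by omega)).symm⟩
      rw [hm, zpow_natCast] at h'
      exact hϖ.2.1 (mem_intUnits_of_pow_mem A F L hϖ.1 (by omega) h')
    · obtain ⟨m, hm⟩ : ∃ m : ℕ, k = m := ⟨k.toNat, (Int.toNat_of_nonneg (by omega)).symm⟩
      rw [hm, zpow_natCast] at h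
      exact hϖ.2.1 (mem_intUnits_of_pow_mem A F L hϖ.1 (by omega) h)
  · rintro rfl
    rw [zpow_zero]
    exact (intUnits A F L).one_mem

/-- The valuation attached to a uniformizer. -/
noncomputable def val {ϖ : Lˣ} (hϖ : IsUnif A F L ϖ) (x : Lˣ) : ℤ :=
  Classical.choose (hϖ.2.2 x)

lemma val_spec {ϖ : Lˣ} (hϖ : IsUnif A F L ϖ) (x : Lˣ) :
    x * ϖ ^ (-(val A F L hϖ x)) ∈ intUnits A F L :=
  Classical.choose_spec (hϖ.2.2 x)

lemma val_eq_of_mem {ϖ : Lˣ} (hϖ : IsUnif A F L ϖ) (x : Lˣ) (n : ℤ)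
    (h : x * ϖ ^ (-n) ∈ intUnits A F L) : val A F L hϖ x = n := by
  have h1 := val_spec A F L hϖ x
  have h2 : ϖ ^ (val A F L hϖ x - n) ∈ intUnits A F L := by
    have h3 := (intUnits A F L).mul_mem h ((intUnits A F L).inv_mem h1)
    have h4 : x * ϖ ^ (-n) * (x * ϖ ^ (-(val A F L hϖ x)))⁻¹ = ϖ ^ (val A F L hϖ x - n) := by
      rw [mul_inv, ← zpow_neg, neg_neg, sub_eq_add_neg, zpow_add]
      rw [mul_mul_mul_comm, mul_inv_cancel, one_mul, mul_comm]
    rwa [h4] at h3
  have := (zpow_mem_intUnits_iff A F L hϖ _).1 h2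
  omega

lemma val_mul {ϖ : Lˣ} (hϖ : IsUnif A F L ϖ) (x y : Lˣ) :
    val A F L hϖ (x * y) = val A F L hϖ x + val A F L hϖ y := by
  apply val_eq_of_mem
  have h := (intUnits A F L).mul_mem (val_spec A F L hϖ x) (val_spec A F L hϖ y)
  have h4 : x * ϖ ^ (-(val A F L hϖ x)) * (y * ϖ ^ (-(val A F L hϖ y)))
      = x * y * ϖ ^ (-(val A F L hϖ x + val A F L hϖ y)) := by
    rw [neg_add, zpow_add, mul_mul_mul_comm]
  rwa [h4] at h

lemma val_unif {ϖ : Lˣ} (hϖ : IsUnif A F L ϖ) : val A F L hϖ ϖ = 1 := by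
  apply val_eq_of_mem
  rw [zpow_neg, zpow_one, mul_inv_cancel]
  exact (intUnits A F L).one_mem

lemma val_eq_zero_iff {ϖ : Lˣ} (hϖ : IsUnif A F L ϖ) (x : Lˣ) :
    val A F L hϖ x = 0 ↔ x ∈ intUnits A F L := by
  constructor
  · intro h
    have := val_spec A F L hϖ x
    rw [h] at this
    simpa using this
  · intro h
    apply val_eq_of_mem
    simpa using h

end Valuation

section Galois

variable {K L : Type} [Field K] [Field L] [Algebra K L] [FiniteDimensional K L] [IsGalois K L]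

/-- The product of the conjugates of a unit is (the image of) its norm. -/
lemma prod_smul_eq_unitsIncl_normUnits (F : Type) [Field F] [Algebra F K] [Fintype (L ≃ₐ[K] L)]
    (y : Lˣ) :
    ∏ g : L ≃ₐ[K] L, g • y = unitsIncl L K (normUnits L K y) := by
  apply Units.ext
  rw [unitsIncl_coe, normUnits_coe, Algebra.norm_eq_prod_automorphisms, Units.coe_prod]
  refine Finset.prod_congr ?_ fun g _ => rfl
  ext g
  simp

/-- The units fixed by a generator of the Galois group are the units of `K`. -/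
lemma fixedBy_eq_range (F : Type) [Field F] [Algebra F K] (σ : L ≃ₐ[K] L)
    (hσ : ∀ g, g ∈ Subgroup.zpowers σ) :
    fixedBy (M := Lˣ) σ = (unitsIncl L K).range := by
  ext x
  rw [mem_fixedBy, MonoidHom.mem_range]
  constructor
  · intro hx
    have hall : ∀ g : L ≃ₐ[K] L, g (x : L) = x := by
      intro g
      have hle : Subgroup.zpowers σ ≤ MulAction.stabilizer (L ≃ₐ[K] L) x := by
        rw [Subgroup.zpowers_le]
        exact hx
      have := hle (hσ g)
      rw [MulAction.mem_stabilizer_iff] at this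
      exact congrArg Units.val this
    have hbot := (IsGalois.mem_bot_iff_fixed (F := K) (E := L) (x : L)).2 hall
    rw [IntermediateField.mem_bot] at hbot
    obtain ⟨y, hy⟩ := hbot
    have hy0 : y ≠ 0 := by
      rintro rfl
      rw [map_zero] at hy
      exact x.ne_zero hy.symm
    refine ⟨Units.mk0 y hy0, ?_⟩
    apply Units.ext
    rw [unitsIncl_coe]
    exact hy
  · rintro ⟨y, rfl⟩
    apply Units.ext
    change σ (algebraMap K L y) = algebraMap K L y
    exact σ.commutes _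

end Galois

/-- **(T3)** `CyclicNormIndexStatement` from CY1, LF2, LF4, the Herbrand library and
Hilbert 90. -/
theorem cyclicNormIndex_of (hCY1 : CyclicGoodSubgroupStatement) (hLF2 : ExistsUnifStatement)
    (hLF4 : GaloisInvStatement) : CyclicNormIndexStatement := by
  intro A F _ _ _ _ _ _ _ _ _ K _ _ _ L _ _ _ _ _ _ hcyc
  classical
  obtain ⟨σ, hσ⟩ := hcyc.exists_generator
  obtain ⟨V, hVU, hfin, hVstab, hV0, hV1⟩ := hCY1 A F K L σ hσ
  have : FiniteDimensional F L := FiniteDimensional.trans F K L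
  obtain ⟨ϖ, hϖ⟩ := hLF2 A F L
  have hUstab : ∀ x ∈ intUnits A F L, σ • x ∈ intUnits A F L := by
    intro x hx
    have h := (intUnits A F L).mul_mem (hLF4 A F K L σ x) hx
    rwa [div_mul_cancel] at h
  have hwσ : ∀ x : Lˣ, val A F L hϖ (σ • x) = val A F L hϖ x := by
    intro x
    have h1 : σ • x = (σ • x / x) * x := by rw [div_mul_cancel]
    rw [h1, val_mul, (val_eq_zero_iff A F L hϖ _).2 (hLF4 A F K L σ x), zero_add]
  have h90 : ∀ x : Lˣ, ∏ g : L ≃ₐ[K] L, g • x = 1 → ∃ y : Lˣ, σ • y / y = x := by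
    intro x hx
    rw [prod_smul_eq_unitsIncl_normUnits F] at hx
    have hnorm : Algebra.norm K (x : L) = 1 := by
      have h1 := congrArg Units.val hx
      rw [unitsIncl_coe, normUnits_coe, Units.val_one] at h1
      exact (algebraMap K L).injective (by rw [h1, map_one])
    obtain ⟨y, hy⟩ := groupCohomology.exists_div_of_norm_eq_one (K := K) (L := L) hσ hnorm
    refine ⟨y⁻¹, ?_⟩
    apply Units.ext
    rw [← hy, Units.val_div_eq_div_val, smul_inv', Units.val_inv_eq_inv_val,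
      Units.val_inv_eq_inv_val]
    change (σ (y : L))⁻¹ / (y : L)⁻¹ = (y : L) / σ (y : L)
    rw [inv_div_inv]
  have key := relIndex_normSubgroup_fixedBy (G := L ≃ₐ[K] L) (M := Lˣ) σ hσ
    (intUnits A F L) V hVU hfin hUstab (fun x hx => hVstab σ x hx) hV0 hV1
    (val A F L hϖ) (val_mul A F L hϖ) ⟨ϖ, val_unif A F L hϖ⟩ (val_eq_zero_iff A F L hϖ) hwσ h90
  have hnormSub : normSubgroup (L ≃ₐ[K] L) Lˣ = (normUnits L K).range.map (unitsIncl L K) := by
    ext x
    rw [mem_normSubgroup, Subgroup.mem_map]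
    constructor
    · rintro ⟨y, rfl⟩
      exact ⟨normUnits L K y, ⟨y, rfl⟩, (prod_smul_eq_unitsIncl_normUnits F y).symm⟩
    · rintro ⟨_, ⟨y, rfl⟩, rfl⟩
      exact ⟨y, prod_smul_eq_unitsIncl_normUnits F y⟩
  have hinj : Function.Injective (unitsIncl L K) := by
    intro a b hab
    apply Units.ext
    have := congrArg Units.val hab
    rw [unitsIncl_coe, unitsIncl_coe] at this
    exact (algebraMap K L).injective this
  rw [hnormSub, fixedBy_eq_range F σ hσ, MonoidHom.range_eq_map (unitsIncl L K),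
    Subgroup.relIndex_map_map_of_injective _ _ hinj, Subgroup.relIndex_top_right,
    IsGalois.card_aut_eq_finrank] at key
  exact key

end Fermat.Agent.S55.Local.H90
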